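import Mathlib

/-!
Lifting of finite projective modules, of their isomorphisms, and of invertible modules along a
surjection of rings with nilpotent kernel.
-/

set_option autoImplicit false

universe u v w

open TensorProduct

noncomputable section

namespace Fermat.Agent.Row24.Crit

variable {R : Type u} {S : Type v} [CommRing R] [CommRing S] [Algebra R S]

/-- The reduction map of a module along a surjective algebra map is surjective. -/
theorem tmul_one_surjective (hS : Function.Surjective (algebraMap R S)) (M : Type w)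
    [AddCommGroup M] [Module R M] :
    Function.Surjective (TensorProduct.mk R S M 1) := by
  intro z
  induction z using TensorProduct.induction_on with
  | zero => exact ⟨0, map_zero _⟩
  | tmul s x =>
    obtain ⟨r, rfl⟩ := hS s
    exact ⟨r • x, by rw [TensorProduct.mk_apply, TensorProduct.tmul_smul,
      Algebra.algebraMap_eq_smul_one, ← TensorProduct.smul_tmul']⟩
  | add a b ha hb =>
    obtain ⟨x, rfl⟩ := ha
    obtain ⟨y, rfl⟩ := hb
    exact ⟨x + y, map_add _ _ _⟩

/-- What dies in the reduction is a combination with coefficients in the kernel. -/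
theorem mem_smul_top_of_tmul_one_eq_zero (hS : Function.Surjective (algebraMap R S)) {M : Type w}
    [AddCommGroup M] [Module R M] {x : M} (hx : (1 : S) ⊗ₜ[R] x = 0) :
    x ∈ (RingHom.ker (algebraMap R S)) • (⊤ : Submodule R M) := by
  let I := RingHom.ker (Algebra.ofId R S)
  let e : (R ⧸ I) ≃ₐ[R] S := Ideal.quotientKerAlgEquivOfSurjective hS
  have h : (Ideal.Quotient.mk I 1) ⊗ₜ[R] x = 0 := by
    have h1 := congrArg (e.symm.toLinearMap.rTensor M) hx
    rw [LinearMap.rTensor_tmul, map_zero] at h1
    rw [map_one]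
    simpa using h1
  have h2 := congrArg (TensorProduct.quotTensorEquivQuotSMul M I) h
  rw [TensorProduct.quotTensorEquivQuotSMul_mk_tmul, map_zero, one_smul,
    Submodule.Quotient.mk_eq_zero] at h2
  exact h2

/-- An endomorphism which vanishes modulo a nilpotent ideal is nilpotent. -/
theorem isNilpotent_of_baseChange_eq_zero (hS : Function.Surjective (algebraMap R S))
    (hker : IsNilpotent (RingHom.ker (algebraMap R S))) {M : Type w} [AddCommGroup M] [Module R M]
    (g : M →ₗ[R] M) (hg : ∀ x, (1 : S) ⊗ₜ[R] g x = 0) : IsNilpotent g := by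
  obtain ⟨n, hn⟩ := hker
  have key : ∀ (m : ℕ) (x : M),
      (g ^ m) x ∈ (RingHom.ker (algebraMap R S)) ^ m • (⊤ : Submodule R M) := by
    intro m
    induction m with
    | zero => intro x; simp
    | succ m ih =>
      intro x
      rw [pow_succ' g m, Module.End.mul_apply]
      have hle : ((RingHom.ker (algebraMap R S)) ^ m • (⊤ : Submodule R M)).map g ≤
          (RingHom.ker (algebraMap R S)) ^ (m + 1) • (⊤ : Submodule R M) := by
        rw [Submodule.map_smul'', pow_succ, Submodule.mul_smul]
        refine Submodule.smul_mono le_rfl ?_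
        rintro _ ⟨y, -, rfl⟩
        exact mem_smul_top_of_tmul_one_eq_zero hS (hg y)
      exact hle (Submodule.mem_map_of_mem (ih x))
  refine ⟨n, LinearMap.ext fun x => ?_⟩
  have h := key n x
  rw [hn, Ideal.zero_eq_bot, Submodule.bot_smul, Submodule.mem_bot] at h
  simpa using h

/-- An endomorphism which is the identity modulo a nilpotent ideal is bijective. -/
theorem bijective_of_baseChange_eq_id (hS : Function.Surjective (algebraMap R S))
    (hker : IsNilpotent (RingHom.ker (algebraMap R S))) {M : Type w} [AddCommGroup M] [Module R M]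
    (f : M →ₗ[R] M) (hf : ∀ x, (1 : S) ⊗ₜ[R] f x = (1 : S) ⊗ₜ[R] x) : Function.Bijective f := by
  have h : IsNilpotent (f - 1) := isNilpotent_of_baseChange_eq_zero hS hker _ fun x => by
    rw [LinearMap.sub_apply, Module.End.one_apply, TensorProduct.tmul_sub, hf, sub_self]
  have hu : IsUnit (1 + (f - 1)) := h.isUnit_one_add
  rw [add_sub_cancel] at hu
  exact (Module.End.isUnit_iff f).1 hu

/-- Isomorphisms of projective modules lift along a nilpotent thickening. -/
theorem exists_linearEquiv_lift (hS : Function.Surjective (algebraMap R S))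
    (hker : IsNilpotent (RingHom.ker (algebraMap R S))) {P Q : Type w} [AddCommGroup P]
    [Module R P] [Module.Projective R P] [AddCommGroup Q] [Module R Q] [Module.Projective R Q]
    (e : S ⊗[R] P ≃ₗ[S] S ⊗[R] Q) :
    ∃ e' : P ≃ₗ[R] Q, e'.toLinearMap.baseChange S = e.toLinearMap := by
  obtain ⟨f, hf⟩ := Module.projective_lifting_property (TensorProduct.mk R S Q 1)
    ((e.toLinearMap.restrictScalars R).comp (TensorProduct.mk R S P 1)) (tmul_one_surjective hS Q)
  obtain ⟨f', hf'⟩ := Module.projective_lifting_property (TensorProduct.mk R S P 1)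
    ((e.symm.toLinearMap.restrictScalars R).comp (TensorProduct.mk R S Q 1))
    (tmul_one_surjective hS P)
  have h1 : ∀ x, (1 : S) ⊗ₜ[R] f x = e ((1 : S) ⊗ₜ[R] x) := fun x => LinearMap.congr_fun hf x
  have h1' : ∀ y, (1 : S) ⊗ₜ[R] f' y = e.symm ((1 : S) ⊗ₜ[R] y) :=
    fun y => LinearMap.congr_fun hf' y
  have hb1 : Function.Bijective (f'.comp f) := bijective_of_baseChange_eq_id hS hker _ fun x => by
    rw [LinearMap.comp_apply, h1', h1, e.symm_apply_apply]
  have hb2 : Function.Bijective (f.comp f') := bijective_of_baseChange_eq_id hS hker _ fun y => by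
    rw [LinearMap.comp_apply, h1, h1', e.apply_symm_apply]
  have hb : Function.Bijective f :=
    ⟨Function.Injective.of_comp (f := f') hb1.1, Function.Surjective.of_comp (g := f') hb2.2⟩
  refine ⟨LinearEquiv.ofBijective f hb, ?_⟩
  refine TensorProduct.AlgebraTensorModule.ext fun s x => ?_
  rw [LinearMap.baseChange_tmul]
  have hs : s ⊗ₜ[R] f x = s • ((1 : S) ⊗ₜ[R] f x) := by rw [TensorProduct.smul_tmul', smul_eq_mul, mul_one]
  have hs' : s ⊗ₜ[R] x = s • ((1 : S) ⊗ₜ[R] x) := by rw [TensorProduct.smul_tmul', smul_eq_mul, mul_one]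
  change s ⊗ₜ[R] f x = e (s ⊗ₜ[R] x)
  rw [hs, hs', map_smul, h1]

/-- Finite projective modules lift along a nilpotent thickening. -/
theorem exists_projective_lift (hS : Function.Surjective (algebraMap R S))
    (hker : IsNilpotent (RingHom.ker (algebraMap R S))) (P₀ : Type w) [AddCommGroup P₀]
    [Module S P₀] [Module.Finite S P₀] [Module.Projective S P₀] :
    ∃ (n : ℕ) (P : Submodule R (Fin n → R)), Module.Projective R P ∧ Module.Finite R P ∧
      Nonempty (S ⊗[R] P ≃ₗ[S] P₀) := by
  classical
  obtain ⟨n, π, hπ⟩ := Module.Finite.exists_fin' S P₀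
  obtain ⟨σ, hσ⟩ := Module.projective_lifting_property π LinearMap.id hπ
  have hπσ : ∀ x, π (σ x) = x := fun x => LinearMap.congr_fun hσ x
  let e₀ : Matrix (Fin n) (Fin n) S := LinearMap.toMatrix' (σ.comp π)
  have he₀ : IsIdempotentElem e₀ := by
    show e₀ * e₀ = e₀
    rw [← LinearMap.toMatrix'_comp]
    congr 1
    exact LinearMap.ext fun v => by simp [hπσ]
  have hnil : ∀ A ∈ RingHom.ker ((algebraMap R S).mapMatrix (m := Fin n)), IsNilpotent A := by
    intro A hA
    obtain ⟨m, hm⟩ := hker
    refine ⟨m, ?_⟩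
    have key : ∀ (j : ℕ) (a b : Fin n), (A ^ j) a b ∈ RingHom.ker (algebraMap R S) ^ j := by
      intro j
      induction j with
      | zero => intro a b; simp [Ideal.one_eq_top]
      | succ j ih =>
        intro a b
        rw [pow_succ, pow_succ, Matrix.mul_apply]
        refine sum_mem fun c _ => Ideal.mul_mem_mul (ih a c) ?_
        have hA0 : (algebraMap R S).mapMatrix A = (0 : Matrix (Fin n) (Fin n) S) := hA
        have h : algebraMap R S (A c b) = 0 :=
          congrArg (fun M : Matrix (Fin n) (Fin n) S => M c b) hA0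
        exact h
    ext a b
    have h := key m a b
    rw [hm] at h
    simpa using h
  have hsurjM : e₀ ∈ ((algebraMap R S).mapMatrix (m := Fin n)).range := by
    choose r hr using hS
    exact ⟨e₀.map r, by ext a b; simp [hr]⟩
  obtain ⟨e, he, hee₀⟩ :=
    exists_isIdempotentElem_eq_of_ker_isNilpotent _ hnil e₀ hsurjM he₀
  let L : (Fin n → R) →ₗ[R] (Fin n → R) := Matrix.toLin' e
  have hLL : ∀ v, L (L v) = L v := fun v => by
    change Matrix.toLin' e (Matrix.toLin' e v) = _
    rw [← LinearMap.comp_apply, ← Matrix.toLin'_mul, he.eq]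
  let q : (Fin n → R) →ₗ[R] LinearMap.range L := L.rangeRestrict
  have hqι : ∀ y : LinearMap.range L, q y.1 = y := by
    rintro ⟨_, v, rfl⟩
    exact Subtype.ext (hLL v)
  have hqL : ∀ v, q (L v) = q v := fun v => Subtype.ext (hLL v)
  refine ⟨n, LinearMap.range L, ?_, inferInstance, ?_⟩
  · exact Module.Projective.of_split (LinearMap.range L).subtype q (LinearMap.ext hqι)
  let : Module R P₀ := Module.compHom P₀ (algebraMap R S)
  have : IsScalarTower R S P₀ :=
    ⟨fun r s x => by rw [Algebra.smul_def, mul_smul]; rfl⟩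
  -- coordinates modulo the kernel
  let m : (Fin n → R) →ₗ[R] (Fin n → S) := (Algebra.linearMap R S).compLeft (Fin n)
  let φ : S ⊗[R] LinearMap.range L →ₗ[S] P₀ :=
    LinearMap.liftBaseChange S
      (((π.restrictScalars R).comp m).comp (LinearMap.range L).subtype)
  let w : Fin n → S ⊗[R] LinearMap.range L := fun i => (1 : S) ⊗ₜ[R] q (Pi.single i 1)
  let ρ : P₀ →ₗ[S] S ⊗[R] LinearMap.range L := (Fintype.linearCombination S w).comp σ
  have hm1 : ∀ i, m (Pi.single i 1) = Pi.single i 1 := fun i => by
    ext a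
    rcases eq_or_ne a i with rfl | h <;> simp [m, *]
  have hmL : ∀ v, m (L v) = σ (π (m v)) := fun v => by
    have h1 : σ.comp π = Matrix.toLin' e₀ := (Matrix.toLin'_toMatrix' _).symm
    have h2 : σ (π (m v)) = Matrix.toLin' e₀ (m v) := LinearMap.congr_fun h1 _
    rw [h2, ← hee₀]
    ext a
    simp [m, L, Matrix.mulVec, dotProduct, Matrix.toLin'_apply]
  have hφw : ∀ i, φ (w i) = π (Pi.single i 1) := fun i => by
    have : φ (w i) = π (m (L (Pi.single i 1))) := by
      simp only [φ, w, LinearMap.liftBaseChange_tmul, one_smul]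
      rfl
    rw [this, hmL, hπσ, hm1]
  have hφρ : ∀ x, φ (ρ x) = x := fun x => by
    simp only [ρ, LinearMap.comp_apply, Fintype.linearCombination_apply, map_sum, map_smul, hφw]
    conv_rhs => rw [← hπσ x, pi_eq_sum_univ' (σ x), map_sum]
    simp only [map_smul]
  have hρ : Function.Surjective ρ := by
    have hwmem : ∀ i, w i ∈ LinearMap.range ρ := fun i => by
      refine ⟨π (Pi.single i 1), ?_⟩
      have h1 : σ (π (Pi.single i 1)) = m (L (Pi.single i 1)) := by rw [hmL, hm1]
      simp only [ρ, LinearMap.comp_apply, h1, Fintype.linearCombination_apply]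
      have h2 : ∀ j, (m (L (Pi.single i 1)) j) • w j =
          (1 : S) ⊗ₜ[R] q (L (Pi.single i 1) j • Pi.single j (1 : R)) := fun j => by
        rw [map_smul, TensorProduct.tmul_smul]
        exact algebraMap_smul S _ _
      rw [Finset.sum_congr rfl fun j _ => h2 j, ← TensorProduct.tmul_sum, ← map_sum,
        ← pi_eq_sum_univ' (L (Pi.single i 1)), hqL]
    rw [← LinearMap.range_eq_top, eq_top_iff]
    rintro z -
    induction z using TensorProduct.induction_on with
    | zero => exact zero_mem _
    | add a b ha hb => exact add_mem ha hb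
    | tmul s y =>
      have hs : s ⊗ₜ[R] y = s • ((1 : S) ⊗ₜ[R] q y.1) := by
        rw [hqι, TensorProduct.smul_tmul', smul_eq_mul, mul_one]
      rw [hs, pi_eq_sum_univ' y.1, map_sum, TensorProduct.tmul_sum]
      refine Submodule.smul_mem _ _ (sum_mem fun j _ => ?_)
      rw [map_smul, TensorProduct.tmul_smul, ← algebraMap_smul S (y.1 j)]
      exact Submodule.smul_mem _ _ (hwmem j)
  exact ⟨(LinearEquiv.ofBijective ρ ⟨Function.LeftInverse.injective hφρ, hρ⟩).symm⟩

/-- Invertible modules lift along a nilpotent thickening. -/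
theorem exists_invertible_lift (hS : Function.Surjective (algebraMap R S))
    (hker : IsNilpotent (RingHom.ker (algebraMap R S))) (P₀ : Type w) [AddCommGroup P₀]
    [Module S P₀] [Module.Invertible S P₀] :
    ∃ (n : ℕ) (P : Submodule R (Fin n → R)), Module.Invertible R P ∧
      Nonempty (S ⊗[R] P ≃ₗ[S] P₀) := by
  obtain ⟨n, P, hP, hPf, ⟨eP⟩⟩ := exists_projective_lift hS hker P₀
  obtain ⟨m, Q, hQ, hQf, ⟨eQ⟩⟩ := exists_projective_lift hS hker (Module.Dual S P₀)
  let e : S ⊗[R] (P ⊗[R] Q) ≃ₗ[S] S ⊗[R] R :=
    TensorProduct.AlgebraTensorModule.distribBaseChange R S P Q ≪≫ₗ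
      TensorProduct.congr eP eQ ≪≫ₗ TensorProduct.comm S _ _ ≪≫ₗ Module.Invertible.linearEquiv S P₀
      ≪≫ₗ (TensorProduct.AlgebraTensorModule.rid R S S).symm
  let : AddCommGroup (P ⊗[R] Q) := TensorProduct.addCommGroup
  obtain ⟨e', -⟩ := exists_linearEquiv_lift (P := P ⊗[R] Q) (Q := R) hS hker e
  exact ⟨n, P, Module.Invertible.left e', ⟨eP⟩⟩

end Fermat.Agent.Row24.Crit
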