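import Mathlib
import Fermat.Agent.Row24.Chart.Data
import Fermat.Agent.Row24.Crit.LiftInvertible

/-!
Bundles on the two-chart curve lift along nilpotent thickenings of the base ring, and the lift of
a rigid bundle is rigid.
-/

set_option autoImplicit false

universe u

open TensorProduct

noncomputable section

namespace Fermat.Agent.Row24.Crit

open Chart

/-- A nilpotent ideal lies in the Jacobson radical. -/
theorem le_jacobson_bot_of_isNilpotent {R : Type u} [CommRing R] {I : Ideal R}
    (hI : IsNilpotent I) : I ≤ Ideal.jacobson ⊥ := by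
  obtain ⟨n, hn⟩ := hI
  intro x hx
  refine Ideal.radical_le_jacobson ⟨n, ?_⟩
  exact (hn.trans Ideal.zero_eq_bot).le (Ideal.pow_mem_pow hx n)

/-- An invertible module over a nilpotent thickening, reducing to a given one. -/
theorem exists_semilinear_lift {R S : Type u} [CommRing R] [CommRing S] (φ : R →+* S)
    (hφ : Function.Surjective φ) (hker : IsNilpotent (RingHom.ker φ)) (N₀ : Type u)
    [AddCommGroup N₀] [Module S N₀] [Module.Invertible S N₀] :
    ∃ (N : Type u) (_ : AddCommGroup N) (_ : Module R N) (_ : Module.Invertible R N)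
      (q : N →+ N₀), Function.Surjective q ∧ (∀ (r : R) (x : N), q (r • x) = φ r • q x) ∧
        ∀ x, q x = 0 → x ∈ RingHom.ker φ • (⊤ : Submodule R N) := by
  let : Algebra R S := φ.toAlgebra
  obtain ⟨n, P, hP, ⟨e⟩⟩ := exists_invertible_lift (R := R) (S := S) hφ hker N₀
  refine ⟨P, inferInstance, inferInstance, hP,
    e.toAddEquiv.toAddMonoidHom.comp (TensorProduct.mk R S P 1).toAddMonoidHom, ?_, ?_, ?_⟩
  · exact e.surjective.comp (tmul_one_surjective hφ P)
  · intro r x
    change e ((1 : S) ⊗ₜ[R] (r • x)) = φ r • e ((1 : S) ⊗ₜ[R] x)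
    rw [← map_smul, TensorProduct.tmul_smul, ← algebraMap_smul S r]
    rfl
  · intro x hx
    exact mem_smul_top_of_tmul_one_eq_zero hφ (e.map_eq_zero_iff.1 hx)

section Lattice

variable {R₁ R S₁ S : Type u} [CommRing R₁] [CommRing R] [CommRing S₁] [CommRing S]
  [Algebra R₁ R] [Algebra S₁ S] (φ : R →+* S) (φ₁ : R₁ →+* S₁)

/-- An invertible lattice in a lifted module, reducing to a given one. -/
theorem exists_lattice_lift (hcomm : ∀ r, φ (algebraMap R₁ R r) = algebraMap S₁ S (φ₁ r))
    (hinj : Function.Injective (algebraMap R₁ R))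
    (hφ : Function.Surjective φ) (hker : IsNilpotent (RingHom.ker φ))
    (hφ₁ : Function.Surjective φ₁) (hker₁ : IsNilpotent (RingHom.ker φ₁))
    {N : Type u} [AddCommGroup N] [Module R N] [Module R₁ N] [IsScalarTower R₁ R N]
    [Module.Invertible R N]
    {N₀ : Type u} [AddCommGroup N₀] [Module S N₀] [Module S₁ N₀] [IsScalarTower S₁ S N₀]
    (q : N →+ N₀) (hq : Function.Surjective q) (hqs : ∀ (r : R) (x : N), q (r • x) = φ r • q x)
    (hqk : ∀ x, q x = 0 → x ∈ RingHom.ker φ • (⊤ : Submodule R N))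
    (M₀ : Submodule S₁ N₀) [Module.Invertible S₁ M₀]
    (hspan : Submodule.span S (M₀ : Set N₀) = ⊤) :
    ∃ M : Submodule R₁ N, Module.Invertible R₁ M ∧ q '' (M : Set N) = (M₀ : Set N₀) ∧
      Submodule.span R (M : Set N) = ⊤ := by
  obtain ⟨P, _, _, hP, q₁, hq₁, hq₁s, -⟩ := exists_semilinear_lift φ₁ hφ₁ hker₁ M₀
  let : Module R₁ N₀ := Module.compHom N₀ φ₁
  have hqlin : ∀ (r : R₁) (x : N), q (r • x) = φ₁ r • q x := fun r x => by
    rw [← algebraMap_smul R r x, hqs, hcomm, algebraMap_smul]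
  let qL : N →ₗ[R₁] N₀ := { q with map_smul' := hqlin }
  let q₁L : P →ₗ[R₁] N₀ :=
    { toFun := fun p => (q₁ p : N₀)
      map_add' := fun a b => by rw [map_add]; rfl
      map_smul' := fun r p => by rw [hq₁s]; rfl }
  obtain ⟨f, hf⟩ := Module.projective_lifting_property qL q₁L hq
  have hf' : ∀ p, q (f p) = q₁ p := fun p => LinearMap.congr_fun hf p
  have himage : q '' (LinearMap.range f : Set N) = (M₀ : Set N₀) := by
    ext z
    refine ⟨?_, fun hz => ?_⟩
    · rintro ⟨_, ⟨p, rfl⟩, rfl⟩
      rw [hf']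
      exact (q₁ p).2
    · obtain ⟨p, hp⟩ := hq₁ ⟨z, hz⟩
      exact ⟨f p, ⟨p, rfl⟩, by rw [hf', hp]⟩
  -- spanning, by Nakayama
  have htop : Submodule.span R (LinearMap.range f : Set N) = ⊤ := by
    refine top_le_iff.1 (Submodule.le_of_le_smul_of_le_jacobson_bot Module.Finite.fg_top
      (le_jacobson_bot_of_isNilpotent hker) fun x _ => ?_)
    have hz : q x ∈ Submodule.span S (q '' (LinearMap.range f : Set N)) := by
      rw [himage, hspan]; trivial
    have key : ∀ z ∈ Submodule.span S (q '' (LinearMap.range f : Set N)),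
        ∃ y ∈ Submodule.span R (LinearMap.range f : Set N), q y = z := by
      intro z hz
      induction hz using Submodule.span_induction with
      | mem z hz =>
        obtain ⟨y, hy, rfl⟩ := hz
        exact ⟨y, Submodule.subset_span hy, rfl⟩
      | zero => exact ⟨0, zero_mem _, map_zero q⟩
      | add a b _ _ ha hb =>
        obtain ⟨y, hy, rfl⟩ := ha
        obtain ⟨y', hy', rfl⟩ := hb
        exact ⟨y + y', add_mem hy hy', map_add q y y'⟩
      | smul s a _ ha =>
        obtain ⟨y, hy, rfl⟩ := ha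
        obtain ⟨r, rfl⟩ := hφ s
        exact ⟨r • y, Submodule.smul_mem _ r hy, hqs r y⟩
    obtain ⟨y, hy, hyx⟩ := key _ hz
    exact Submodule.mem_sup.2 ⟨y, hy, x - y, hqk _ (by rw [map_sub, hyx, sub_self]), by abel⟩
  -- the extension to `R` is bijective
  have hsurj : Function.Surjective (f.liftBaseChange R) := by
    rw [← LinearMap.range_eq_top, eq_top_iff, ← htop, Submodule.span_le]
    rintro _ ⟨p, rfl⟩
    exact ⟨1 ⊗ₜ p, by simp⟩
  have : Module.Invertible R₁ P := hP
  have hinjf : Function.Injective f := by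
    intro a b hab
    have h1 : (f.liftBaseChange R) (1 ⊗ₜ a) = (f.liftBaseChange R) (1 ⊗ₜ b) := by simp [hab]
    have h2 := (Module.Invertible.bijective_of_surjective hsurj).injective h1
    have h3 : Function.Injective ((Algebra.linearMap R₁ R).rTensor P) :=
      Module.Flat.rTensor_preserves_injective_linearMap _ hinj
    refine (TensorProduct.lid R₁ P).symm.injective (h3 ?_)
    simpa using h2
  exact ⟨LinearMap.range f, Module.Invertible.congr (LinearEquiv.ofInjective f hinjf), himage, htop⟩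

end Lattice

variable {k : Type u} [Field k] {C : CurveRings k} {A A₀ : Type u} [CommRing A] [Algebra k A]
  [CommRing A₀] [Algebra k A₀] (φ : A →ₐ[k] A₀)

/-- The ring map on a chart. -/
def mapSub (B : Subalgebra k C.B12) : C.sub A B →+* C.sub A₀ B :=
  ((C.mapR φ).toRingHom.comp (C.sub A B).toSubring.subtype).codRestrict (C.sub A₀ B).toSubring
    fun r => C.mapR_mem_sub φ r.2

/-- Base change of a surjection is surjective, with nilpotent kernel if the original one is. -/
theorem tensor_map_surj_nilpotent (hφ : Function.Surjective φ)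
    (hker : IsNilpotent (RingHom.ker φ)) (B : Type u) [CommRing B] [Algebra k B] :
    Function.Surjective (Algebra.TensorProduct.map φ (AlgHom.id k B)) ∧
      IsNilpotent (RingHom.ker (Algebra.TensorProduct.map φ (AlgHom.id k B))) := by
  refine ⟨TensorProduct.map_surjective hφ Function.surjective_id, ?_⟩
  obtain ⟨n, hn⟩ := hker
  refine ⟨n, ?_⟩
  rw [Algebra.TensorProduct.rTensor_ker φ hφ, ← Ideal.map_pow, hn]
  exact Ideal.map_bot

theorem mapSub_surj_nilpotent (hφ : Function.Surjective φ) (hker : IsNilpotent (RingHom.ker φ))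
    (B : Subalgebra k C.B12) :
    Function.Surjective (mapSub φ B) ∧ IsNilpotent (RingHom.ker (mapSub φ B)) := by
  obtain ⟨hs, n, hn⟩ := tensor_map_surj_nilpotent φ hφ hker B
  have hcomm : ∀ w : A ⊗[k] B, mapSub φ B (C.subEquiv A B w) =
      C.subEquiv A₀ B (Algebra.TensorProduct.map φ (AlgHom.id k B) w) := by
    intro w
    induction w using TensorProduct.induction_on with
    | zero => simp
    | tmul a z => rfl
    | add v w hv hw => simp [map_add, hv, hw]
  refine ⟨fun r => ?_, n, ?_⟩
  · obtain ⟨w, rfl⟩ := (C.subEquiv A₀ B).surjective r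
    obtain ⟨v, rfl⟩ := hs w
    exact ⟨C.subEquiv A B v, hcomm v⟩
  · have hK : RingHom.ker (mapSub φ B) ≤
        (RingHom.ker (Algebra.TensorProduct.map φ (AlgHom.id k B))).map
          (C.subEquiv A B).toRingEquiv.toRingHom := by
      intro r hr
      obtain ⟨w, rfl⟩ := (C.subEquiv A B).surjective r
      refine Ideal.mem_map_of_mem _ ?_
      rw [RingHom.mem_ker, hcomm] at hr
      exact (C.subEquiv A₀ B).injective (hr.trans (map_zero _).symm)
    refine le_bot_iff.1 ((Ideal.pow_right_mono hK n).trans ?_)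
    rw [← Ideal.map_pow, hn]
    exact le_of_eq Ideal.map_bot

theorem span_M1 {A : Type u} [CommRing A] [Algebra k A] (M : Glued C A) :
    Submodule.span (C.R12 A) (M.M1 : Set M.carrier) = ⊤ := by
  refine eq_top_iff.2 fun m _ => ?_
  obtain ⟨n, hn⟩ := M.loc1 m
  have h := Submodule.smul_mem _ (C.yA A ^ n) (Submodule.subset_span (R := C.R12 A) hn)
  rwa [smul_smul, ← mul_pow, C.yA_mul_xA, one_pow, one_smul] at h

theorem span_M2 {A : Type u} [CommRing A] [Algebra k A] (M : Glued C A) :
    Submodule.span (C.R12 A) (M.M2 : Set M.carrier) = ⊤ := by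
  refine eq_top_iff.2 fun m _ => ?_
  obtain ⟨n, hn⟩ := M.loc2 m
  have h := Submodule.smul_mem _ (C.xA A ^ n) (Submodule.subset_span (R := C.R12 A) hn)
  rwa [smul_smul, ← mul_pow, C.xA_mul_yA, one_pow, one_smul] at h

/-- Elements of the overlap ring are cleared by a power of a coordinate. -/
theorem exists_pow_mul_mem_sub {B : Subalgebra k C.B12} {w : C.B12} (hw : w ∈ B)
    (h : ∀ z, ∃ n : ℕ, z * w ^ n ∈ B) (r : C.R12 A) :
    ∃ n : ℕ, ((1 : A) ⊗ₜ[k] w) ^ n * r ∈ C.sub A B := by
  induction r using TensorProduct.induction_on with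
  | zero => exact ⟨0, by simp⟩
  | tmul a z =>
    obtain ⟨n, hn⟩ := h z
    refine ⟨n, ?_⟩
    rw [Algebra.TensorProduct.tmul_pow, Algebra.TensorProduct.tmul_mul_tmul, one_pow, one_mul,
      mul_comm]
    exact C.tmul_mem_sub a hn
  | add v v' hv hv' =>
    obtain ⟨n, hn⟩ := hv
    obtain ⟨n', hn'⟩ := hv'
    have hwA : (1 : A) ⊗ₜ[k] w ∈ C.sub A B := C.tmul_mem_sub 1 hw
    refine ⟨n + n', ?_⟩
    rw [mul_add]
    refine add_mem ?_ ?_
    · rw [pow_add, mul_right_comm]; exact mul_mem hn (pow_mem hwA n')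
    · rw [pow_add, mul_assoc]; exact mul_mem (pow_mem hwA n) hn'

/-- A lattice spanning the module absorbs every element after clearing denominators. -/
theorem exists_pow_smul_mem {B : Subalgebra k C.B12} {w : C.B12} (hw : w ∈ B)
    (h : ∀ z, ∃ n : ℕ, z * w ^ n ∈ B) {N : Type u} [AddCommGroup N] [Module (C.R12 A) N]
    (M : Submodule (C.sub A B) N) (hspan : Submodule.span (C.R12 A) (M : Set N) = ⊤) (x : N) :
    ∃ n : ℕ, ((1 : A) ⊗ₜ[k] w) ^ n • x ∈ M := by
  have hwA : (1 : A) ⊗ₜ[k] w ∈ C.sub A B := C.tmul_mem_sub 1 hw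
  have hx : x ∈ Submodule.span (C.R12 A) (M : Set N) := hspan ▸ Submodule.mem_top
  induction hx using Submodule.span_induction with
  | mem z hz => exact ⟨0, by rwa [pow_zero, one_smul]⟩
  | zero => exact ⟨0, by simp⟩
  | add a b _ _ ha hb =>
    obtain ⟨n, hn⟩ := ha
    obtain ⟨n', hn'⟩ := hb
    refine ⟨n + n', ?_⟩
    rw [smul_add]
    refine add_mem ?_ ?_
    · rw [add_comm, pow_add, mul_smul]; exact M.smul_mem ⟨_, pow_mem hwA n'⟩ hn
    · rw [pow_add, mul_smul]; exact M.smul_mem ⟨_, pow_mem hwA n⟩ hn'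
  | smul r a _ ha =>
    obtain ⟨n, hn⟩ := ha
    obtain ⟨n', hn'⟩ := exists_pow_mul_mem_sub hw h r
    refine ⟨n + n', ?_⟩
    have : ((1 : A) ⊗ₜ[k] w) ^ (n + n') • r • a =
        (((1 : A) ⊗ₜ[k] w) ^ n' * r) • (((1 : A) ⊗ₜ[k] w) ^ n • a) := by
      rw [smul_smul, smul_smul, pow_add]; ring_nf
    rw [this]
    exact M.smul_mem ⟨_, hn'⟩ hn

/-- Bundles lift along nilpotent thickenings of the base. -/
theorem exists_glued_lift (hφ : Function.Surjective φ) (hker : IsNilpotent (RingHom.ker φ))
    (M₀ : Glued C A₀) : ∃ M : Glued C A, Nonempty (Glued.Hom φ M M₀) := by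
  obtain ⟨hs, hn⟩ := tensor_map_surj_nilpotent φ hφ hker C.B12
  obtain ⟨hs1, hn1⟩ := mapSub_surj_nilpotent φ hφ hker C.B1
  obtain ⟨hs2, hn2⟩ := mapSub_surj_nilpotent φ hφ hker C.B2
  obtain ⟨N, _, modN, invN, q, hq, hqs, hqk⟩ :=
    exists_semilinear_lift (C.mapR φ).toRingHom hs hn M₀.carrier
  let : Module A N := Module.compHom N (algebraMap A (C.R12 A))
  have : IsScalarTower A (C.R12 A) N :=
    ⟨fun a r x => by rw [Algebra.smul_def, mul_smul]; rfl⟩
  obtain ⟨M1, inv1, him1, hsp1⟩ := exists_lattice_lift (C.mapR φ).toRingHom (mapSub φ C.B1)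
    (fun _ => rfl) Subtype.val_injective hs hn hs1 hn1 q hq hqs hqk M₀.M1 (span_M1 M₀)
  obtain ⟨M2, inv2, him2, hsp2⟩ := exists_lattice_lift (C.mapR φ).toRingHom (mapSub φ C.B2)
    (fun _ => rfl) Subtype.val_injective hs hn hs2 hn2 q hq hqs hqk M₀.M2 (span_M2 M₀)
  exact ⟨{ carrier := N
           M1 := M1
           M2 := M2
           loc1 := exists_pow_smul_mem C.x_mem C.loc1 M1 hsp1
           loc2 := exists_pow_smul_mem C.y_mem C.loc2 M2 hsp2 },
    ⟨{ toFun := q
       map_smul := hqs
       span1 := by rw [him1, Submodule.span_eq]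
       span2 := by rw [him2, Submodule.span_eq] }⟩⟩

/-- Evaluation at the point commutes with base change. -/
theorem augA_mapSub (s : C.R2 A) : φ (C.augA A s) = C.augA A₀ (mapSub φ C.B2 s) := by
  obtain ⟨w, rfl⟩ := (C.subEquiv A C.B2).surjective s
  induction w using TensorProduct.induction_on with
  | zero => simp
  | tmul a z =>
    have : mapSub φ C.B2 (C.subEquiv A C.B2 (a ⊗ₜ z)) = C.subEquiv A₀ C.B2 (φ a ⊗ₜ z) :=
      Subtype.ext rfl
    rw [this, C.augA_subEquiv_tmul, C.augA_subEquiv_tmul, map_smul]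
  | add v w hv hw => simp only [map_add, hv, hw]

/-- The kernel of a surjective semilinear map of invertible modules over a surjection of rings. -/
theorem mem_ker_smul_top {R S : Type u} [CommRing R] [CommRing S] {ψ : R →+* S}
    (hψ : Function.Surjective ψ) {N N₀ : Type u} [AddCommGroup N] [Module R N]
    [Module.Invertible R N] [AddCommGroup N₀] [Module S N₀] [Module.Invertible S N₀]
    (q : N →+ N₀) (hq : Function.Surjective q) (hqs : ∀ (r : R) (x : N), q (r • x) = ψ r • q x)
    {x : N} (hx : q x = 0) : x ∈ RingHom.ker ψ • (⊤ : Submodule R N) := by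
  let : Algebra R S := ψ.toAlgebra
  let : Module R N₀ := Module.compHom N₀ ψ
  have : IsScalarTower R S N₀ := ⟨fun r s y => by rw [Algebra.smul_def, mul_smul]; rfl⟩
  let qL : N →ₗ[R] N₀ := { q with map_smul' := hqs }
  have hsurj : Function.Surjective (qL.liftBaseChange S) := fun z => by
    obtain ⟨y, rfl⟩ := hq z
    exact ⟨1 ⊗ₜ y, by simp [qL]⟩
  refine mem_smul_top_of_tmul_one_eq_zero hψ
    ((Module.Invertible.bijective_of_surjective hsurj).injective ?_)
  rw [map_zero, LinearMap.liftBaseChange_tmul, one_smul]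
  exact hx

/-- Functionals send `I • M` into `I`. -/
theorem dual_mem_ideal {R N : Type u} [CommRing R] [AddCommGroup N] [Module R N] {I : Ideal R}
    {M : Submodule R N} (g : M →ₗ[R] R) {z : N} (hz : z ∈ I • M) (hzM : z ∈ M) :
    g ⟨z, hzM⟩ ∈ I := by
  have h : (⟨z, hzM⟩ : M) ∈ I • (⊤ : Submodule R M) := by
    rw [← Submodule.comap_map_eq_of_injective M.injective_subtype (I • ⊤), Submodule.map_smul'',
      Submodule.map_subtype_top]
    exact hz
  refine Submodule.smul_induction_on h (fun r hr x _ => ?_) (fun x y hx hy => ?_)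
  · rw [map_smul, smul_eq_mul]
    exact Ideal.mul_mem_right _ _ hr
  · rw [map_add]
    exact add_mem hx hy

/-- A generator modulo the augmentation ideal of an invertible module is torsion free. -/
theorem eq_zero_of_smul_mem_ker_smul {A R N : Type u} [CommRing A] [CommRing R] [Algebra A R]
    [AddCommGroup N] [Module A N] [Module R N] [IsScalarTower A R N] (aug : R →ₐ[A] A)
    (M : Submodule R N) [Module.Invertible R M] {e : N} (he : e ∈ M)
    (hex : ∀ m ∈ M, ∃ a : A, m - a • e ∈ RingHom.ker aug • M) {a : A}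
    (ha : a • e ∈ RingHom.ker aug • M) : a = 0 := by
  have hle : RingHom.ker aug • M ≤ M := Submodule.smul_le_right
  have heq : ∀ (b : A) (z : N) (hz : z ∈ M) (g : M →ₗ[R] R),
      aug (g ((algebraMap A R b) • ⟨z, hz⟩)) = b * aug (g ⟨z, hz⟩) := fun b z hz g => by
    rw [map_smul, smul_eq_mul, map_mul, aug.commutes, Algebra.algebraMap_self, RingHom.id_apply]
  have hf : ∀ (g : M →ₗ[R] R) (m : M), a * aug (g m) = 0 := by
    intro g m
    obtain ⟨b, hb⟩ := hex m m.2
    have hm : m = (algebraMap A R b) • ⟨e, he⟩ + ⟨_, hle hb⟩ := Subtype.ext (by simp)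
    have h1 : aug (g m) = b * aug (g ⟨e, he⟩) := by
      rw [hm, map_add, map_add, RingHom.mem_ker.1 (dual_mem_ideal g hb (hle hb)), add_zero,
        heq b e he g]
    have h2 : a * aug (g ⟨e, he⟩) = 0 := by
      rw [← heq a e he g]
      refine RingHom.mem_ker.1 ?_
      have hae : (algebraMap A R a • ⟨e, he⟩ : M) = ⟨a • e, hle ha⟩ := Subtype.ext (by simp)
      rw [hae]
      exact dual_mem_ideal g ha (hle ha)
    rw [h1, mul_left_comm, h2, mul_zero]
  obtain ⟨t, ht⟩ := (Module.Invertible.bijective (R := R) (M := M)).2 1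
  have : a * aug (contractLeft R M t) = 0 := by
    clear ht
    induction t using TensorProduct.induction_on with
    | zero => simp
    | tmul g m => rw [contractLeft_apply]; exact hf g m
    | add v w hv hw => rw [map_add, map_add, mul_add, hv, hw, add_zero]
  rwa [ht, map_one, mul_one] at this

/-- Shortcut for the scalars acting on a lattice. -/
local instance {A : Type u} [CommRing A] [Algebra k A] (M : Glued C A) :
    SMul (C.sub A C.B2) M.M2 := M.M2.smul

/-- Shortcut for the module structure of a lattice. -/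
local instance {A : Type u} [CommRing A] [Algebra k A] (M : Glued C A) :
    Module (C.sub A C.B2) M.M2 := M.M2.module

/-- A bundle whose reduction along a nilpotent thickening is rigid is rigid. -/
theorem rigid_of_hom (hφ : Function.Surjective φ) (hker : IsNilpotent (RingHom.ker φ))
    {M : Glued C A} {M₀ : Glued C A₀} (f : Glued.Hom φ M M₀)
    (hM₀ : M₀.Rigid) : M.Rigid := by
  obtain ⟨hs2, hn2⟩ := mapSub_surj_nilpotent φ hφ hker C.B2
  obtain ⟨e₀, he₀, hu⟩ := hM₀
  -- semilinearity on the chart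
  have hsm : ∀ (r : C.R2 A) (m : M.carrier), f.toFun (r • m) = mapSub φ C.B2 r • f.toFun m :=
    fun r m => f.map_smul r m
  -- every section of the reduction lifts
  have hlift : ∀ m₀ ∈ M₀.M2, ∃ m ∈ M.M2, f.toFun m = m₀ := by
    intro m₀ hm₀
    rw [← f.span2] at hm₀
    induction hm₀ using Submodule.span_induction with
    | mem z hz => exact hz
    | zero => exact ⟨0, zero_mem _, map_zero _⟩
    | add a b _ _ ha hb =>
      obtain ⟨x, hx, rfl⟩ := ha
      obtain ⟨y, hy, rfl⟩ := hb
      exact ⟨x + y, add_mem hx hy, map_add _ x y⟩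
    | smul r a _ ha =>
      obtain ⟨x, hx, rfl⟩ := ha
      obtain ⟨s, rfl⟩ := hs2 r
      exact ⟨s • x, M.M2.smul_mem s hx, hsm s x⟩
  -- the kernel on the chart
  have hfk : ∀ m ∈ M.M2, f.toFun m = 0 →
      (m : M.carrier) ∈ RingHom.ker (mapSub φ C.B2) • M.M2 := by
    intro m hm hm0
    let q2 : M.M2 →+ M₀.M2 :=
      { toFun := fun x => ⟨f.toFun (x : M.carrier), f.mem2 x.2⟩
        map_zero' := Subtype.ext (map_zero f.toFun)
        map_add' := fun x y => Subtype.ext (map_add f.toFun (x : M.carrier) (y : M.carrier)) }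
    have h := mem_ker_smul_top hs2 q2 (fun z => by
      obtain ⟨y, hy, hyz⟩ := hlift z z.2
      exact ⟨⟨y, hy⟩, Subtype.ext hyz⟩) (fun r x => Subtype.ext (hsm r x))
      (x := (⟨m, hm⟩ : M.M2)) (Subtype.ext hm0)
    have h' := Submodule.mem_map_of_mem (f := M.M2.subtype) h
    rwa [Submodule.map_smul'', Submodule.map_subtype_top] at h'
  -- sections vanishing at the point lift to such sections
  have hliftO : ∀ m₀ ∈ M₀.M2O, ∃ m ∈ M.M2O, f.toFun m = m₀ := by
    intro m₀ hm₀
    unfold Glued.M2O at hm₀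
    induction hm₀ using Submodule.smul_induction_on' with
    | smul r hr a ha =>
      obtain ⟨x, hx, rfl⟩ := hlift a ha
      obtain ⟨s, rfl⟩ := hs2 r
      have haug := augA_mapSub φ s
      refine ⟨(s - algebraMap A _ (C.augA A s)) • x,
        Submodule.smul_mem_smul (by simp [RingHom.mem_ker]) hx, ?_⟩
      have hzero : mapSub φ C.B2 (algebraMap A (C.R2 A) (C.augA A s)) = 0 := by
        refine Subtype.ext ?_
        change C.mapR φ (algebraMap A (C.R12 A) (C.augA A s)) = 0
        rw [C.mapR_algebraMap, haug, show C.augA A₀ (mapSub φ C.B2 s) = 0 from hr, map_zero]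
      rw [hsm, map_sub, hzero, sub_zero]
    | add a _ b _ ha hb =>
      obtain ⟨x, hx, rfl⟩ := ha
      obtain ⟨y, hy, rfl⟩ := hb
      exact ⟨x + y, add_mem hx hy, map_add _ x y⟩
  obtain ⟨e, he, hfe⟩ := hlift e₀ he₀
  -- the lift spans modulo the point
  have hspan : M.M2 ≤ Submodule.span (C.R2 A) {e} ⊔ M.M2O := by
    refine Submodule.le_of_le_smul_of_le_jacobson_bot (Module.Finite.iff_fg.1 inferInstance)
      (le_jacobson_bot_of_isNilpotent hn2) fun m hm => ?_
    obtain ⟨a₀, ha₀, -⟩ := hu (f.toFun m) (f.mem2 hm)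
    obtain ⟨a, rfl⟩ := hφ a₀
    obtain ⟨z, hz, hfz⟩ := hliftO _ ha₀
    have hz' : m - a • e - z ∈ RingHom.ker (mapSub φ C.B2) • M.M2 := by
      refine hfk _ (sub_mem (sub_mem hm ?_) (M.M2O_le hz)) ?_
      · rw [← algebraMap_smul (C.R2 A) a e]; exact M.M2.smul_mem _ he
      · rw [map_sub, map_sub, f.map_smul_base, hfe, hfz, sub_self]
    refine Submodule.mem_sup.2 ⟨a • e + z, ?_, _, hz', by abel⟩
    refine add_mem (Submodule.mem_sup_left ?_) (Submodule.mem_sup_right hz)
    rw [← algebraMap_smul (C.R2 A) a e]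
    exact Submodule.smul_mem _ _ (Submodule.mem_span_singleton_self e)
  -- reading off a base coefficient
  have hex : ∀ m ∈ M.M2, ∃ a : A, m - a • e ∈ M.M2O := by
    intro m hm
    obtain ⟨_, hr, z, hz, rfl⟩ := Submodule.mem_sup.1 (hspan hm)
    obtain ⟨r, rfl⟩ := Submodule.mem_span_singleton.1 hr
    refine ⟨C.augA A r, ?_⟩
    have : r • e + z - C.augA A r • e = (r - algebraMap A _ (C.augA A r)) • e + z := by
      rw [sub_smul, algebraMap_smul]; abel
    rw [this]
    exact add_mem (Submodule.smul_mem_smul (by simp [RingHom.mem_ker]) he) hz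
  -- uniqueness, by the functionals
  have hzero : ∀ a : A, a • e ∈ M.M2O → a = 0 := by
    intro a ha
    refine eq_zero_of_smul_mem_ker_smul (C.augA A) M.M2 he (fun m hm => hex m hm) ?_
    exact ha
  refine ⟨e, he, fun m hm => ?_⟩
  obtain ⟨a, ha⟩ := hex m hm
  refine ⟨a, ha, fun b hb => ?_⟩
  refine (sub_eq_zero.1 (hzero (a - b) ?_)).symm
  have : (a - b) • e = (m - b • e) - (m - a • e) := by rw [sub_smul]; abel
  rw [this]
  exact sub_mem hb ha

end Fermat.Agent.Row24.Crit
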