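import Mathlib
import Fermat.Agent.Row24.Chart.Data
import Fermat.Agent.Row24.Crit.Lift

/-!
A base change of a glued bundle is unique up to isomorphism.
-/

set_option autoImplicit false

universe u

open TensorProduct

noncomputable section

namespace Fermat.Agent.Row24.Crit

open Chart

variable {k : Type u} [Field k] {C : CurveRings k} {A A' : Type u} [CommRing A] [Algebra k A]
  [CommRing A'] [Algebra k A'] {φ : A →ₐ[k] A'} {M : Glued C A} {M' M'' : Glued C A'}

/-- The linearised base change map is bijective. -/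
theorem exists_baseChange_equiv (f : Glued.Hom φ M M') :
    letI := (C.mapR φ).toRingHom.toAlgebra
    ∃ e : C.R12 A' ⊗[C.R12 A] M.carrier ≃ₗ[C.R12 A'] M'.carrier,
      ∀ m, e (1 ⊗ₜ m) = f.toFun m := by
  let : Algebra (C.R12 A) (C.R12 A') := (C.mapR φ).toRingHom.toAlgebra
  let : Module (C.R12 A) M'.carrier := Module.compHom M'.carrier (C.mapR φ).toRingHom
  have : IsScalarTower (C.R12 A) (C.R12 A') M'.carrier :=
    ⟨fun r s x => by rw [Algebra.smul_def, mul_smul]; rfl⟩
  let fL : M.carrier →ₗ[C.R12 A] M'.carrier :=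
    { f.toFun with map_smul' := f.map_smul }
  have hsurj : Function.Surjective (fL.liftBaseChange (C.R12 A')) := by
    rw [← LinearMap.range_eq_top, eq_top_iff, ← span_M1 M', Submodule.span_le, ← f.span1]
    intro z hz
    have hle : Submodule.span (C.R1 A') (f.toFun '' M.M1) ≤
        (LinearMap.range (fL.liftBaseChange (C.R12 A'))).restrictScalars (C.R1 A') := by
      rw [Submodule.span_le]
      rintro _ ⟨m, -, rfl⟩
      exact ⟨1 ⊗ₜ m, by simp [fL]⟩
    exact hle hz
  refine ⟨LinearEquiv.ofBijective _ (Module.Invertible.bijective_of_surjective hsurj),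
    fun m => ?_⟩
  simp [fL]

/-- Two base changes of a bundle along the same map are isomorphic. -/
theorem nonempty_iso_of_hom (f : Glued.Hom φ M M') (g : Glued.Hom φ M M'') :
    Nonempty (Glued.Iso M' M'') := by
  let : Algebra (C.R12 A) (C.R12 A') := (C.mapR φ).toRingHom.toAlgebra
  obtain ⟨ef, hef⟩ := exists_baseChange_equiv f
  obtain ⟨eg, heg⟩ := exists_baseChange_equiv g
  let ψ : M'.carrier ≃ₗ[C.R12 A'] M''.carrier := ef.symm.trans eg
  have hψ : ∀ m, ψ (f.toFun m) = g.toFun m := fun m => by
    rw [← hef m, ← heg m]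
    simp [ψ]
  have key : ∀ (T : Subalgebra A' (C.R12 A')) (s : Set M.carrier) (N' : Submodule T M'.carrier)
      (N'' : Submodule T M''.carrier), Submodule.span T (f.toFun '' s) = N' →
      Submodule.span T (g.toFun '' s) = N'' → ∀ x, ψ x ∈ N'' ↔ x ∈ N' := by
    intro T s N' N'' h' h'' x
    have himg : N''.carrier = ψ '' (N' : Set M'.carrier) := by
      have h := Submodule.map_span (ψ.toLinearMap.restrictScalars T) (f.toFun '' s)
      rw [h'] at h
      rw [Set.image_image] at h
      have hs : (fun m => (ψ.toLinearMap.restrictScalars T) (f.toFun m)) '' s = g.toFun '' s :=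
        Set.image_congr fun m _ => hψ m
      rw [hs, h''] at h
      exact (congrArg (fun P : Submodule T M''.carrier => (P : Set M''.carrier)) h).symm
    change ψ x ∈ N''.carrier ↔ _
    rw [himg, ψ.injective.mem_set_image]
    rfl
  exact ⟨⟨ψ, key (C.R1 A') _ _ _ f.span1 g.span1, key (C.R2 A') _ _ _ f.span2 g.span2⟩⟩

end Fermat.Agent.Row24.Crit
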