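import Mathlib
import Fermat.Prelude.Def_AlgebraicGeometry_RelPicardAlgEquivZeroCut

/-!
Smoothness of a scheme representing a Picard type functor, by lifting line bundles along
square-zero thickenings.
-/

set_option autoImplicit false

universe u

open CategoryTheory CategoryTheory.Limits AlgebraicGeometry AlgebraicGeometry.RelPicard
  NeronModelInfra GoodReductionJacobian

noncomputable section

namespace Fermat.Agent.Row24.Crit

section General

variable {R : Type u} [CommRing R]

/-- The structure morphism of the spectrum of an algebra. -/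
abbrev specStr (R : Type u) [CommRing R] (B : Type u) [CommRing B] [Algebra R B] :
    Spec (CommRingCat.of B) ⟶ Spec (CommRingCat.of R) :=
  Spec.map (CommRingCat.ofHom (algebraMap R B))

/-- The closed immersion of a thickening, as a morphism over the base. -/
def thickening (B : Type u) [CommRing B] [Algebra R B] (I : Ideal B) :
    SchemeHomOver (specStr R (B ⧸ I)) (specStr R B) :=
  ⟨Spec.map (CommRingCat.ofHom (Ideal.Quotient.mk I)), by
    rw [← Spec.map_comp]; rfl⟩

/-- A nilpotent thickening is surjective on points. -/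
theorem thickening_surjective (B : Type u) [CommRing B] [Algebra R B] {I : Ideal B}
    (hI : IsNilpotent I) : Function.Surjective (thickening (R := R) B I).1.base := by
  intro x
  have hle : I ≤ x.asIdeal := by
    obtain ⟨n, hn⟩ := hI
    exact x.2.le_of_pow_le (n := n) (hn.trans_le bot_le)
  let x' : PrimeSpectrum B := x
  have hmem : x' ∈ Set.range (PrimeSpectrum.comap (Ideal.Quotient.mk I)) := by
    rw [range_comap_of_surjective _ _ Ideal.Quotient.mk_surjective, Ideal.mk_ker,
      PrimeSpectrum.mem_zeroLocus]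
    exact hle
  obtain ⟨y, hy⟩ := hmem
  exact ⟨y, hy⟩

/-- An affine open piece of a morphism with the lifting property is smooth. -/
theorem smooth_comp_of_exists_lift {X : Scheme.{u}} (f : X ⟶ Spec (CommRingCat.of R))
    [LocallyOfFinitePresentation f]
    (h : ∀ (B : Type u) [CommRing B] [Algebra R B] (I : Ideal B), I ^ 2 = ⊥ →
      ∀ g : SchemeHomOver (specStr R (B ⧸ I)) f,
        ∃ g' : SchemeHomOver (specStr R B) f, (thickening (R := R) B I).1 ≫ g'.1 = g.1)
    (A : CommRingCat.{u}) (j : Spec A ⟶ X) [IsOpenImmersion j] : Smooth (j ≫ f) := by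
  obtain ⟨φ, hφ⟩ := Spec.map_surjective (j ≫ f)
  rw [← hφ, HasRingHomProperty.Spec_iff (P := @Smooth), RingHom.smooth_def]
  refine ⟨?_, ?_⟩
  swap
  · rw [← HasRingHomProperty.Spec_iff (P := @LocallyOfFinitePresentation), hφ]
    infer_instance
  algebraize [φ.hom]
  refine Algebra.FormallySmooth.of_comp_surjective fun B _ _ I hI a => ?_
  -- the point of `X` given by `a`
  have ha : φ ≫ CommRingCat.ofHom a.toRingHom = CommRingCat.ofHom (algebraMap R (B ⧸ I)) :=
    CommRingCat.hom_ext (RingHom.ext fun r => a.commutes r)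
  let g : SchemeHomOver (specStr R (B ⧸ I)) f :=
    ⟨Spec.map (CommRingCat.ofHom a.toRingHom) ≫ j, by
      rw [Category.assoc, ← hφ, ← Spec.map_comp, ha]⟩
  obtain ⟨g', hg'⟩ := h B I hI g
  have hrange : Set.range g'.1 ⊆ Set.range j := by
    rintro _ ⟨x, rfl⟩
    obtain ⟨y, rfl⟩ := thickening_surjective (R := R) B ⟨2, hI⟩ x
    refine ⟨(Spec.map (CommRingCat.ofHom a.toRingHom)).base y, ?_⟩
    exact (congrArg (fun m => m.base y) hg').symm
  obtain ⟨ψ, hψ⟩ := Spec.map_surjective (IsOpenImmersion.lift j g'.1 hrange)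
  have hψf : Spec.map ψ ≫ j = g'.1 := by
    rw [hψ]; exact IsOpenImmersion.lift_fac _ _ _
  have hcomp : φ ≫ ψ = CommRingCat.ofHom (algebraMap R B) := Spec.map_injective (by
    rw [Spec.map_comp, hφ, ← Category.assoc, hψf, g'.2])
  have hres : ψ ≫ CommRingCat.ofHom (Ideal.Quotient.mk I) = CommRingCat.ofHom a.toRingHom :=
    Spec.map_injective ((cancel_mono j).1 (by
      rw [Spec.map_comp, Category.assoc, hψf]; exact hg'))
  refine ⟨⟨ψ.hom, fun r => ?_⟩, AlgHom.ext fun x => ?_⟩
  · exact congrArg (fun m : CommRingCat.of R ⟶ CommRingCat.of B => m.hom r) hcomp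
  · exact congrArg (fun m => m.hom x) hres

/-- A morphism locally of finite presentation to an affine scheme which lifts maps along
square-zero thickenings of affine schemes is smooth. -/
theorem smooth_of_exists_lift {X : Scheme.{u}} (f : X ⟶ Spec (CommRingCat.of R))
    [LocallyOfFinitePresentation f]
    (h : ∀ (B : Type u) [CommRing B] [Algebra R B] (I : Ideal B), I ^ 2 = ⊥ →
      ∀ g : SchemeHomOver (specStr R (B ⧸ I)) f,
        ∃ g' : SchemeHomOver (specStr R B) f, (thickening (R := R) B I).1 ≫ g'.1 = g.1) :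
    Smooth f := by
  refine HasRingHomProperty.of_source_openCover (P := @Smooth) X.affineCover fun i => ?_
  exact HasRingHomProperty.appTop (P := @Smooth) _
    (@smooth_comp_of_exists_lift _ _ _ f _ h _ (X.affineCover.f i) (X.affineCover.map_prop i))

end General

section Functor

variable {R : Type u} [CommRing R] {C : Scheme.{u}} {c : C ⟶ Spec (CommRingCat.of R)}
  {ε : SchemeHomOver (𝟙 (Spec (CommRingCat.of R))) c}

/-- Pulling back twice. -/
theorem pullbackAlong_pullbackAlong {T T' T'' : Scheme.{u}} {t : T ⟶ Spec (CommRingCat.of R)}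
    {t' : T' ⟶ Spec (CommRingCat.of R)} {t'' : T'' ⟶ Spec (CommRingCat.of R)}
    (M : RigidifiedLineBundle c ε t) (φ : SchemeHomOver t' t) (ψ : SchemeHomOver t'' t') :
    Nonempty ((M.pullbackAlong (postComp φ ψ)).L ≅ ((M.pullbackAlong φ).pullbackAlong ψ).L) :=
  ⟨(Scheme.Modules.pullbackCongr (baseChangeSnd_comp c φ ψ).symm).app M.L ≪≫
    ((Scheme.Modules.pullbackComp _ _).app M.L).symm⟩

/-- A representing scheme of finite presentation is smooth as soon as bundles of the
subfunctor lift along square-zero thickenings. -/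
theorem smooth_of_representsRelSubPic {P : SubPicCondition c ε} {D : RelativePic0Designation R c}
    (hD : RepresentsRelSubPic c ε P D) [LocallyOfFinitePresentation D.toBase]
    (hlift : ∀ (B : Type u) [CommRing B] [Algebra R B] (I : Ideal B), I ^ 2 = ⊥ →
      ∀ M : RigidifiedLineBundle c ε (specStr R (B ⧸ I)), P.P _ M →
        ∃ M' : RigidifiedLineBundle c ε (specStr R B), P.P _ M' ∧
          Nonempty ((M'.pullbackAlong (thickening B I)).L ≅ M.L)) :
    Smooth D.toBase := by
  refine smooth_of_exists_lift D.toBase fun B _ _ I hI g => ?_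
  have hmem : P.P _ (hD.poincare.pullbackAlong g) := P.pullback_mem _ _ g _ hD.poincare_mem
  obtain ⟨M', hM', ⟨e⟩⟩ := hlift B I hI _ hmem
  refine ⟨hD.classify _ M' hM', congrArg Subtype.val
    (hD.ext_of_iso _ (postComp (hD.classify _ M' hM') (thickening B I)) g ?_)⟩
  obtain ⟨e₁⟩ := pullbackAlong_pullbackAlong hD.poincare (hD.classify _ M' hM') (thickening B I)
  obtain ⟨e₂⟩ := RigidifiedLineBundle.pullbackAlong_congr (thickening B I)
    (hD.classify_spec _ M' hM')
  exact ⟨e₁ ≪≫ e₂ ≪≫ e⟩

end Functor

end Fermat.Agent.Row24.Crit
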