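import Mathlib
import Fermat.Agent.Row24.Crit.Lift
import Fermat.Agent.Row24.Crit.HomUnique
import Fermat.Agent.Row24.Crit.Smooth
import Fermat.Agent.Row24.Dict.Interface

/-!
Rigidified bundles on the curve lift along square-zero thickenings of the test algebra.
-/

set_option autoImplicit false

universe u

open CategoryTheory CategoryTheory.Limits AlgebraicGeometry AlgebraicGeometry.RelPicard
  NeronModelInfra

noncomputable section

namespace Fermat.Agent.Row24.Crit

open Chart

variable {k : Type u} [Field k] {R : CurveRings k}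

/-- Precompose a base change map with an isomorphism. -/
def isoCompHom {A A' : Type u} [CommRing A] [Algebra k A] [CommRing A'] [Algebra k A']
    {φ : A →ₐ[k] A'} {M N : Glued R A} {M' : Glued R A'} (e : Glued.Iso M N)
    (f : Glued.Hom φ N M') : Glued.Hom φ M M' where
  toFun := f.toFun.comp e.equiv.toLinearMap.toAddMonoidHom
  map_smul r m := by
    change f.toFun (e.equiv (r • m)) = R.mapR φ r • f.toFun (e.equiv m)
    rw [map_smul, f.map_smul]
  span1 := by
    have h : (e.equiv '' (M.M1 : Set M.carrier)) = (N.M1 : Set N.carrier) := by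
      ext x
      refine ⟨?_, fun hx => ⟨e.equiv.symm x, ?_, e.equiv.apply_symm_apply x⟩⟩
      · rintro ⟨m, hm, rfl⟩
        exact (e.mem1 m).2 hm
      · exact (e.mem1 _).1 (by rwa [e.equiv.apply_symm_apply])
    rw [← f.span1, ← h, Set.image_image]
    rfl
  span2 := by
    have h : (e.equiv '' (M.M2 : Set M.carrier)) = (N.M2 : Set N.carrier) := by
      ext x
      refine ⟨?_, fun hx => ⟨e.equiv.symm x, ?_, e.equiv.apply_symm_apply x⟩⟩
      · rintro ⟨m, hm, rfl⟩
        exact (e.mem2 m).2 hm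
      · exact (e.mem2 _).1 (by rwa [e.equiv.apply_symm_apply])
    rw [← f.span2, ← h, Set.image_image]
    rfl

variable {C : Scheme.{u}} {c : C ⟶ Spec (CommRingCat.of k)}
  {ε : SchemeHomOver (𝟙 (Spec (CommRingCat.of k))) c}

/-- Rigidified bundles lift along nilpotent thickenings. -/
theorem exists_bundle_lift (Δ : Dict.Dictionary c ε R) (B : Type u) [CommRing B] [Algebra k B]
    (I : Ideal B) (hI : I ^ 2 = ⊥) (M : RigidifiedLineBundle c ε (specStr k (B ⧸ I))) :
    ∃ M' : RigidifiedLineBundle c ε (specStr k B),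
      Nonempty ((M'.pullbackAlong (thickening B I)).L ≅ M.L) := by
  let φ : B →ₐ[k] B ⧸ I := Ideal.Quotient.mkₐ k I
  have hφ : Function.Surjective φ := Ideal.Quotient.mkₐ_surjective k I
  have hker : IsNilpotent (RingHom.ker φ) := ⟨2, by
    rw [show RingHom.ker φ = I from Ideal.Quotient.mkₐ_ker k I, hI]; rfl⟩
  obtain ⟨N, ⟨f⟩⟩ := exists_glued_lift φ hφ hker (Δ.glued (B ⧸ I) M)
  have hN : N.Rigid := rigid_of_hom φ hφ hker f (Δ.rigid _ M)
  obtain ⟨M', ⟨e⟩⟩ := Δ.exists_bundle B N hN
  obtain ⟨g⟩ := Δ.nonempty_hom B (B ⧸ I) φ M'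
  obtain ⟨e'⟩ := (Δ.iso_iff (B ⧸ I) (M'.pullbackAlong (Dict.affHom φ)) M).1
    (nonempty_iso_of_hom g (isoCompHom e f))
  have hψ : (Dict.affHom φ : SchemeHomOver (specStr k (B ⧸ I)) (specStr k B)) = thickening B I :=
    Subtype.ext rfl
  exact ⟨M', ⟨(Scheme.Modules.pullbackCongr
    (congrArg (baseChangeSnd c) hψ.symm)).app M'.L ≪≫ e'⟩⟩

end Fermat.Agent.Row24.Crit
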