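import Mathlib
import Fermat.Prelude.Def_AlgebraicGeometry_RepresentsRelSubPic

/-!
Properness of a scheme over an algebraically closed field dominated on rational points by a
proper scheme, and separatedness from a difference map.
-/

set_option autoImplicit false

universe u

open CategoryTheory CategoryTheory.Limits AlgebraicGeometry NeronModelInfra

noncomputable section

namespace Fermat.Agent.Row24.Crit

/-- A morphism over a field with proper source and separated target of finite type is surjective
as soon as it is surjective on rational points (the field being algebraically closed). -/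
theorem surjective_of_forall_point {k : Type u} [Field k] [IsAlgClosed k] {X Y : Scheme.{u}}
    (f : X ⟶ Spec (CommRingCat.of k)) [LocallyOfFiniteType f] [IsSeparated f]
    (φ : Y ⟶ X) [UniversallyClosed (φ ≫ f)]
    (h : ∀ p : SchemeHomOver (𝟙 (Spec (CommRingCat.of k))) f,
      ∃ q : Spec (CommRingCat.of k) ⟶ Y, q ≫ φ = p.1) : Surjective φ := by
  have : UniversallyClosed φ := .of_comp_of_isSeparated φ f
  have : JacobsonSpace X := LocallyOfFiniteType.jacobsonSpace f
  have hsub : closedPoints X ⊆ Set.range φ := by
    intro x hx
    obtain ⟨q, hq⟩ := h ⟨pointOfClosedPoint f x hx, pointOfClosedPoint_comp f x hx⟩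
    refine ⟨q (IsLocalRing.closedPoint k), ?_⟩
    have hqx : (q ≫ φ) (IsLocalRing.closedPoint k) =
        pointOfClosedPoint f x hx (IsLocalRing.closedPoint k) := by rw [hq]
    exact hqx.trans (pointOfClosedPoint_apply f x hx _)
  refine ⟨fun x => ?_⟩
  have hclosed : IsClosed (Set.range φ) := φ.isClosedMap.isClosed_range
  exact hclosed.closure_subset_iff.2 hsub (by rw [closure_closedPoints]; trivial)

/-- A separated scheme of finite type dominated by a proper scheme is proper. -/
theorem isProper_of_surjective {k : Type u} [Field k] {X Y : Scheme.{u}}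
    (f : X ⟶ Spec (CommRingCat.of k)) [LocallyOfFiniteType f] [IsSeparated f]
    (φ : Y ⟶ X) [UniversallyClosed (φ ≫ f)] [Surjective φ] : IsProper f :=
  have : UniversallyClosed f := .of_comp_surjective φ f
  {}

/-- Properness over an algebraically closed field from surjectivity on rational points. -/
theorem isProper_of_forall_point {k : Type u} [Field k] [IsAlgClosed k] {X Y : Scheme.{u}}
    (f : X ⟶ Spec (CommRingCat.of k)) [LocallyOfFiniteType f] [IsSeparated f]
    (φ : Y ⟶ X) [UniversallyClosed (φ ≫ f)]
    (h : ∀ p : SchemeHomOver (𝟙 (Spec (CommRingCat.of k))) f,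
      ∃ q : Spec (CommRingCat.of k) ⟶ Y, q ≫ φ = p.1) : IsProper f :=
  have : Surjective φ := surjective_of_forall_point f φ h
  isProper_of_surjective f φ

/-- A scheme over a base whose points have a difference map, detecting equality by the value
at a section which is a closed immersion, is separated. -/
theorem isSeparated_of_sub {R : Type u} [CommRing R] {X : Scheme.{u}}
    (f : X ⟶ Spec (CommRingCat.of R)) (e : Spec (CommRingCat.of R) ⟶ X) [IsClosedImmersion e]
    (m : pullback f f ⟶ X) (hm : m ≫ f = pullback.fst f f ≫ f)
    (hsub : ∀ {T : Scheme.{u}} (t : T ⟶ Spec (CommRingCat.of R)) (g g' : SchemeHomOver t f),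
      pullback.lift g.1 g'.1 (g.2.trans g'.2.symm) ≫ m = t ≫ e ↔ g.1 = g'.1)
    (he : e ≫ f = 𝟙 _) : IsSeparated f := by
  refine ⟨?_⟩
  have hdiag : pullback.diagonal f ≫ m = f ≫ e := by
    have h := (hsub f ⟨𝟙 X, Category.id_comp f⟩ ⟨𝟙 X, Category.id_comp f⟩).2 rfl
    exact h
  have hpb : IsPullback (pullback.diagonal f) f m e := by
    refine ⟨⟨hdiag⟩, ⟨PullbackCone.IsLimit.mk hdiag (fun s => s.fst ≫ pullback.fst f f)
      (fun s => ?_) (fun s => ?_) fun s l hl _ => ?_⟩⟩
    · have hs : s.fst ≫ pullback.fst f f = s.fst ≫ pullback.snd f f := by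
        refine (hsub (s.fst ≫ pullback.fst f f ≫ f)
          ⟨s.fst ≫ pullback.fst f f, Category.assoc _ _ _⟩
          ⟨s.fst ≫ pullback.snd f f, by rw [Category.assoc, ← pullback.condition]⟩).1 ?_
        have hl : pullback.lift (s.fst ≫ pullback.fst f f) (s.fst ≫ pullback.snd f f)
            (by simp [pullback.condition]) = s.fst :=
          pullback.hom_ext (pullback.lift_fst _ _ _) (pullback.lift_snd _ _ _)
        rw [hl, ← hm, ← Category.assoc s.fst m f, s.condition, Category.assoc s.snd e f, he,
          Category.comp_id]
      apply pullback.hom_ext <;> simp [← hs]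
    · simp only [Category.assoc]
      rw [← hm, ← Category.assoc, s.condition, Category.assoc, he, Category.comp_id]
    · rw [← hl]; simp
  exact MorphismProperty.of_isPullback hpb.flip (inferInstance : IsClosedImmersion e)

/-- Separatedness over a field from a difference map on points. -/
theorem isSeparated_of_sub_field {k : Type u} [Field k] {X : Scheme.{u}}
    (f : X ⟶ Spec (CommRingCat.of k)) (e : Spec (CommRingCat.of k) ⟶ X) (he : e ≫ f = 𝟙 _)
    (m : pullback f f ⟶ X) (hm : m ≫ f = pullback.fst f f ≫ f)
    (hsub : ∀ {T : Scheme.{u}} (t : T ⟶ Spec (CommRingCat.of k)) (g g' : SchemeHomOver t f),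
      pullback.lift g.1 g'.1 (g.2.trans g'.2.symm) ≫ m = t ≫ e ↔ g.1 = g'.1) :
    IsSeparated f :=
  haveI : IsClosedImmersion e :=
    isClosedImmersion_of_comp_eq_id (Y := Spec (CommRingCat.of k)) f e he
  isSeparated_of_sub f e m hm hsub he

end Fermat.Agent.Row24.Crit
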